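import Mathlib
import Fermat.Agent.G.S37.PullHecke
import Fermat.Agent.G.Conj.Deg

/-!
# Program T (S35), leaf (AUX-NEW), part 3 : the inclusion `F(N) ⊂ F(N')` for `N ∣ N'` (prefix `s35e_`)

`heckeAlphaBar ℚ̄ N ℓ` is the inclusion for the pair `(N, N * ℓ)`; for the auxiliary-level argument
one needs the inclusion `F(M q) ⊂ F(M a q)` whose target is NOT syntactically of the form
`(M q) * a`.  This file provides `s35eIncl (h : N ∣ N')` for an arbitrary divisibility, with
finiteness, degree (`ψ(N) [F(N') : F(N)] = ψ(N')`), Galois-equivariance, the pull-back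
`s35ePullIncl h : J₀(N) → J₀(N')` and `h_* h^* = [F(N') : F(N)]`.
-/

set_option autoImplicit false
set_option linter.unusedSectionVars false
set_option linter.unusedVariables false
set_option synthInstance.maxHeartbeats 400000
set_option linter.style.haveILetI false

noncomputable section

namespace Fermat.Agent.G

open ModularCurve AlgebraicCurve IntermediateField Fermat.Agent.S24

local notation "Qb" => AlgebraicClosure ℚ

section Incl

variable {N N' : ℕ} [NeZero N] [NeZero N']

/-- `F(N) ≤ F(N')` for `N ∣ N'` -/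
theorem s35e_bar_le (h : N ∣ N') : modularFunctionFieldBar N ≤ modularFunctionFieldBar N' := by
  obtain ⟨c, rfl⟩ := h
  haveI : NeZero c := ⟨fun hc => NeZero.ne (N * c) (by rw [hc, mul_zero])⟩
  intro x hx
  have := (heckeAlphaBar Qb N c ⟨x, hx⟩).2
  rwa [coe_heckeAlphaBar] at this

/-- the inclusion `F(N) ⊂ F(N')` for `N ∣ N'` -/
def s35eIncl (h : N ∣ N') : modularFunctionFieldBar N →ₐ[Qb] modularFunctionFieldBar N' :=
  IntermediateField.inclusion (s35e_bar_le h)

@[simp]
theorem coe_s35eIncl (h : N ∣ N') (x : modularFunctionFieldBar N) :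
    ((s35eIncl h x : modularFunctionFieldBar N') : LaurentSeries Qb) = (x : LaurentSeries Qb) :=
  IntermediateField.coe_inclusion _ x

theorem s35eIncl_jBar (h : N ∣ N') : s35eIncl h (jBar N) = jBar N' :=
  Subtype.ext rfl

theorem s35e_incl_finite (h : N ∣ N') : FiniteAlong Qb (s35eIncl h) := by
  haveI := finiteDimensional_jBar N'
  exact gff_finite_along (s35eIncl h) (jBar N) (jBar N') (s35eIncl_jBar h)

theorem s35e_incl_integral (h : N ∣ N') : (s35eIncl h).toRingHom.IsIntegral :=
  gff_integral_of_finite _ (s35e_incl_finite h)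

/-- `ψ(N) [F(N') : F(N)] = ψ(N')` -/
theorem s35e_incl_finrank (h : N ∣ N') :
    dedekindPsi N * finrankAlong Qb (s35eIncl h) = dedekindPsi N' := by
  have htower := gcjd_finrank_tower (s35eIncl h) (jBar N) (jBar N') (s35eIncl_jBar h)
  rw [gcjd_finrank_jBar N, gcjd_finrank_jBar N'] at htower
  exact htower

theorem s35e_dedekindPsi_pos (N : ℕ) [NeZero N] : 0 < dedekindPsi N := by
  rw [← gcjd_finrank_jBar N]
  haveI := finiteDimensional_jBar N
  exact Module.finrank_pos

/-- `[F(N') : F(N)] = a + 1` when `N' = N a` as numbers, `a` a prime not dividing `N` -/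
theorem s35e_incl_finrank_prime (h : N ∣ N') {a : ℕ} (ha : a.Prime) (haN : ¬ a ∣ N)
    (hN' : N' = N * a) : finrankAlong Qb (s35eIncl h) = a + 1 := by
  have h1 := s35e_incl_finrank h
  have h2 : dedekindPsi N' = dedekindPsi N * (a + 1) := by
    rw [hN', gcjd_dedekindPsi_mul_prime N ha haN]
  rw [h2] at h1
  exact Nat.eq_of_mul_eq_mul_left (s35e_dedekindPsi_pos N) h1

/-- `heckeAlphaBar` is the inclusion -/
theorem s35e_alpha_eq_incl (N ℓ : ℕ) [NeZero N] [NeZero ℓ] :
    heckeAlphaBar Qb N ℓ = s35eIncl (dvd_mul_right N ℓ) := rfl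

theorem s35e_incl_intertwines (h : N ∣ N') (σ : Qb ≃ₐ[ℚ] Qb) :
    SemilinearAut.IntertwinesAlong (s35eIncl h).toRingHom
      (arithmeticGalois (modularFunctionFieldFull N) σ)
      (arithmeticGalois (modularFunctionFieldFull N') σ) := by
  intro x
  apply Subtype.ext
  rw [coe_arithmeticGalois_smul]
  show coeffMap (σ : Qb →+* Qb)
      ((s35eIncl h x : modularFunctionFieldBar N') : LaurentSeries Qb)
    = ((s35eIncl h (arithmeticGalois (modularFunctionFieldFull N) σ • x) :
        modularFunctionFieldBar N') : LaurentSeries Qb)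
  rw [coe_s35eIncl, coe_s35eIncl, coe_arithmeticGalois_smul]

theorem s35e_incl_fundamentalIdentity (h : N ∣ N') :
    haveI := gff_hasPrincipalDivisors N'
    FundamentalIdentityAlong Qb (s35eIncl h) (s35e_incl_integral h) :=
  haveI := gff_hasPrincipalDivisors N'
  gffa_along_fundamentalIdentity (s35eIncl h) (s35e_incl_finite h) (s35e_incl_integral h)
    (isSepGen_jBar N)

theorem s35e_incl_normFormula (h : N ∣ N') :
    NormFormulaAlong Qb (s35eIncl h) (s35e_incl_finite h) :=
  gffa_along_normFormula (s35eIncl h) (s35e_incl_finite h) (isSepGen_jBar N)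

/-- THE PULL-BACK `J₀(N) → J₀(N')` along the inclusion `F(N) ⊂ F(N')`, `N ∣ N'`. -/
def s35ePullIncl (h : N ∣ N') : JZero N →+ JZero N' :=
  haveI := gff_hasPrincipalDivisors N'
  g37pPullAlong (s35eIncl h) (s35e_incl_integral h) (s35e_incl_fundamentalIdentity h)

/-- THE PUSH-FORWARD `J₀(N') → J₀(N)` along the inclusion `F(N) ⊂ F(N')`, `N ∣ N'`. -/
def s35ePushIncl (h : N ∣ N') : JZero N' →+ JZero N :=
  g37pPushAlong (s35eIncl h) (s35e_incl_integral h) (s35e_incl_finite h)
    (s35e_incl_normFormula h)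

/-- `g37pPull` is `s35ePullIncl` -/
theorem s35e_pull_eq_pullIncl (N a : ℕ) [NeZero N] [NeZero a] :
    g37pPull N a = s35ePullIncl (dvd_mul_right N a) := rfl

/-- `g37pPush` is `s35ePushIncl` -/
theorem s35e_push_eq_pushIncl (N a : ℕ) [NeZero N] [NeZero a] :
    g37pPush N a = s35ePushIncl (dvd_mul_right N a) := rfl

/-- the pull-back commutes with the Galois action -/
theorem s35e_pullIncl_galois (h : N ∣ N') (σ : Qb ≃ₐ[ℚ] Qb) (x : JZero N) :
    s35ePullIncl h (σ • x) = σ • s35ePullIncl h x := by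
  haveI := gff_hasPrincipalDivisors N'
  rw [galois_smul_pic0_def, galois_smul_pic0_def]
  exact g37p_pullAlong_smul (s35eIncl h) (s35e_incl_integral h)
    (s35e_incl_fundamentalIdentity h) (s35e_incl_intertwines h σ) x

/-- `h_* h^* = [F(N') : F(N)]` -/
theorem s35e_pushIncl_pullIncl (h : N ∣ N') (x : JZero N) :
    s35ePushIncl h (s35ePullIncl h x) = finrankAlong Qb (s35eIncl h) • x :=
  haveI := gff_hasPrincipalDivisors N'
  g37p_pushAlong_pullAlong (s35eIncl h) (s35e_incl_integral h) (s35e_incl_finite h)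
    (s35e_incl_normFormula h) (s35e_incl_fundamentalIdentity h) (isSepGen_jBar N) x

/-- the kernel of the pull-back is killed by the degree -/
theorem s35e_pullIncl_eq_zero (h : N ∣ N') {a : ℕ} (ha : a.Prime) (haN : ¬ a ∣ N)
    (hN' : N' = N * a) (x : JZero N) (hx : s35ePullIncl h x = 0) : (a + 1) • x = 0 := by
  have h1 := s35e_pushIncl_pullIncl h x
  rw [hx, map_zero, s35e_incl_finrank_prime h ha haN hN'] at h1
  exact h1.symm

end Incl

end Fermat.Agent.G
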