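import Mathlib

/-!
# Program T (S35), leaf (AUX-NEW), part 1 : the norm commutes with a base change of coprime degree
(prefix `s35e_`)

`F ⊂ F₁ ⊂ E`, `F ⊂ L ⊂ E` fields, `[F₁ : F]` and `[L : F]` coprime, `[E : L] = [F₁ : F]`.
Then an `F`-basis of `F₁` is an `L`-basis of `E` (linear disjointness of extensions of coprime
degree), hence `N_{E/L}(x) = N_{F₁/F}(x)` for `x ∈ F₁`.
-/

set_option autoImplicit false

noncomputable section

namespace Fermat.Agent.G

open Module

/-- an `F`-basis of `F₁` stays linearly independent over `L` when the degrees are coprime -/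
theorem s35e_linearIndependent_of_coprime {F F₁ L E : Type*} [Field F] [Field F₁] [Field L]
    [Field E] [Algebra F F₁] [Algebra F L] [Algebra F E] [Algebra F₁ E] [Algebra L E]
    [IsScalarTower F F₁ E] [IsScalarTower F L E]
    (hcop : (finrank F F₁).Coprime (finrank F L)) {ι : Type*} (b : ι → F₁)
    (hb : LinearIndependent F b) :
    LinearIndependent L (fun i => algebraMap F₁ E (b i)) := by
  let A : IntermediateField F E := (IsScalarTower.toAlgHom F F₁ E).fieldRange
  let e : F₁ ≃ₐ[F] A := AlgEquiv.ofInjectiveField (IsScalarTower.toAlgHom F F₁ E)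
  have hA : finrank F A = finrank F F₁ := e.toLinearEquiv.finrank_eq.symm
  have hld : A.LinearDisjoint L :=
    IntermediateField.LinearDisjoint.of_finrank_coprime (by rwa [hA])
  have hb' : LinearIndependent F (fun i => e (b i)) :=
    hb.map' e.toLinearMap (LinearMap.ker_eq_bot.2 e.injective)
  exact hld.linearIndependent_left hb'

/-- THE NORM COMMUTES WITH A BASE CHANGE OF COPRIME DEGREE. -/
theorem s35e_norm_baseChange {F F₁ L E : Type*} [Field F] [Field F₁] [Field L]
    [Field E] [Algebra F F₁] [Algebra F L] [Algebra F E] [Algebra F₁ E] [Algebra L E]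
    [IsScalarTower F F₁ E] [IsScalarTower F L E] [FiniteDimensional F F₁]
    (hcop : (finrank F F₁).Coprime (finrank F L))
    (hrank : finrank L E = finrank F F₁) (x : F₁) :
    Algebra.norm L (algebraMap F₁ E x) = algebraMap F L (Algebra.norm F x) := by
  classical
  set n := finrank F F₁ with hn
  let b : Basis (Fin n) F F₁ := Module.finBasis F F₁
  have hli : LinearIndependent L (fun i => algebraMap F₁ E (b i)) :=
    s35e_linearIndependent_of_coprime hcop b b.linearIndependent
  have : Nonempty (Fin n) := ⟨⟨0, Module.finrank_pos⟩⟩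
  let b' : Basis (Fin n) L E :=
    basisOfLinearIndependentOfCardEqFinrank hli (by rw [Fintype.card_fin, hrank])
  have hb' : ∀ i, b' i = algebraMap F₁ E (b i) := fun i => by
    simp [b']
  rw [Algebra.norm_eq_matrix_det b', Algebra.norm_eq_matrix_det b, RingHom.map_det]
  congr 1
  ext i k
  rw [RingHom.mapMatrix_apply, Matrix.map_apply, Algebra.leftMulMatrix_eq_repr_mul,
    Algebra.leftMulMatrix_eq_repr_mul]
  have h1 : algebraMap F₁ E x * b' k =
      ∑ j, (algebraMap F L (b.repr (x * b k) j)) • b' j := by
    rw [hb', ← map_mul]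
    conv_lhs => rw [← b.sum_repr (x * b k)]
    rw [map_sum]
    refine Finset.sum_congr rfl fun j _ => ?_
    rw [hb', Algebra.smul_def, Algebra.smul_def, map_mul, ← IsScalarTower.algebraMap_apply,
      ← IsScalarTower.algebraMap_apply]
  rw [h1, map_sum, Finsupp.coe_finsetSum, Finset.sum_apply]
  have h2 : ∀ j, (b'.repr ((algebraMap F L (b.repr (x * b k) j)) • b' j)) i =
      if j = i then algebraMap F L (b.repr (x * b k) j) else 0 := by
    intro j
    rw [map_smul, Basis.repr_self, Finsupp.smul_apply, Finsupp.single_apply, smul_eq_mul,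
      mul_ite, mul_one, mul_zero]
  rw [Finset.sum_congr rfl fun j _ => h2 j, Finset.sum_ite_eq' Finset.univ i]
  simp

end Fermat.Agent.G
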