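import Mathlib
import Fermat.Agent.G.S37.PullHecke
import Fermat.Agent.S35.AuxNew.Norm

/-!
# Program T (S35), leaf (AUX-NEW), part 2 : base change of a push-forward along a pull-back
(prefix `s35e_`)

A commutative square of embeddings of modular function fields over `ℚ̄`

```
F(N₀) --φ₁--> F(N₁)
  |ψ₀           |ψ₁
F(N₂) --φ₂--> F(N₃)
```

in which the norm commutes with the base change (`N_{φ₂}(ψ₁ f) = ψ₀(N_{φ₁} f)`) satisfies
`φ₂_* ∘ ψ₁^* = ψ₀^* ∘ φ₁_*` on divisors of degree `0`, hence on `Pic⁰`.  Proof: the difference kills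
principal divisors and is bounded on single places, so THE VANISHING PRINCIPLE `ghrm_vanish`
applies (as for `g37p_pull_hecke`).
-/

set_option autoImplicit false
set_option linter.unusedSectionVars false
set_option linter.unusedVariables false
set_option synthInstance.maxHeartbeats 400000
set_option linter.style.haveILetI false

noncomputable section

namespace Fermat.Agent.G

open ModularCurve AlgebraicCurve Fermat.Agent.S24

local notation "Qb" => AlgebraicClosure ℚ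

section Bounds

variable {N N' : ℕ} [NeZero N] [NeZero N']
  (φ : modularFunctionFieldBar N →ₐ[Qb] modularFunctionFieldBar N')

/-- the pull-back of an effective divisor of degree `d` has `ℓ¹`-norm `[F' : F] d` -/
theorem s35e_norm1_pull (hfin : FiniteAlong Qb φ) (hφ : φ.toRingHom.IsIntegral)
    (D : Divisor Qb (modularFunctionFieldBar N)) (hD : 0 ≤ D) :
    haveI := gff_hasPrincipalDivisors N'
    (ghrNorm1 (Divisor.pullbackAlong φ hφ D) : ℤ) = (finrankAlong Qb φ : ℤ) * Divisor.degree D := by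
  haveI := gff_hasPrincipalDivisors N'
  have hdeg : ∀ Q : Place Qb (modularFunctionFieldBar N'), Q.deg = 1 :=
    fun Q => (isSepGen_jBar N').deg_eq_one Q
  have hE : 0 ≤ Divisor.pullbackAlong φ hφ D := by
    letI := algebraAlong φ
    haveI := isScalarTower_along φ
    haveI := isIntegral_along φ hφ
    exact ghrn_pullback_nonneg D hD
  rw [← ghrb_degree_eq_norm1 hdeg _ hE]
  exact Divisor.degree_pullbackAlong φ hφ
    (gffa_along_fundamentalIdentity φ hfin hφ (isSepGen_jBar N)) D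

/-- the push-forward of an effective divisor has the same `ℓ¹`-norm (= degree) -/
theorem s35e_norm1_push (hφ : φ.toRingHom.IsIntegral)
    (D : Divisor Qb (modularFunctionFieldBar N')) (hD : 0 ≤ D) :
    (ghrNorm1 (Divisor.pushforwardAlong φ hφ D) : ℤ) = Divisor.degree D := by
  have hdeg : ∀ Q : Place Qb (modularFunctionFieldBar N), Q.deg = 1 :=
    fun Q => (isSepGen_jBar N).deg_eq_one Q
  have hE : 0 ≤ Divisor.pushforwardAlong φ hφ D := by
    letI := algebraAlong φ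
    haveI := isScalarTower_along φ
    haveI := isIntegral_along φ hφ
    exact ghrn_pushforward_nonneg D hD
  rw [← ghrb_degree_eq_norm1 hdeg _ hE, Divisor.degree_pushforwardAlong]

theorem s35e_pull_nonneg (hφ : φ.toRingHom.IsIntegral)
    (D : Divisor Qb (modularFunctionFieldBar N)) (hD : 0 ≤ D) :
    haveI := gff_hasPrincipalDivisors N'
    0 ≤ Divisor.pullbackAlong φ hφ D := by
  haveI := gff_hasPrincipalDivisors N'
  letI := algebraAlong φ
  haveI := isScalarTower_along φ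
  haveI := isIntegral_along φ hφ
  exact ghrn_pullback_nonneg D hD

theorem s35e_push_nonneg (hφ : φ.toRingHom.IsIntegral)
    (D : Divisor Qb (modularFunctionFieldBar N')) (hD : 0 ≤ D) :
    0 ≤ Divisor.pushforwardAlong φ hφ D := by
  letI := algebraAlong φ
  haveI := isScalarTower_along φ
  haveI := isIntegral_along φ hφ
  exact ghrn_pushforward_nonneg D hD

theorem s35e_single_nonneg {X : Type*} (P : X) : (0 : X →₀ ℤ) ≤ Finsupp.single P 1 := by
  rw [Finsupp.le_def]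
  intro Q
  rw [Finsupp.coe_zero, Pi.zero_apply]
  exact Finsupp.single_nonneg.2 zero_le_one Q

end Bounds

section Square

variable {N₀ N₁ N₂ N₃ : ℕ} [NeZero N₀] [NeZero N₁] [NeZero N₂] [NeZero N₃]
  (φ₁ : modularFunctionFieldBar N₀ →ₐ[Qb] modularFunctionFieldBar N₁)
  (φ₂ : modularFunctionFieldBar N₂ →ₐ[Qb] modularFunctionFieldBar N₃)
  (ψ₀ : modularFunctionFieldBar N₀ →ₐ[Qb] modularFunctionFieldBar N₂)
  (ψ₁ : modularFunctionFieldBar N₁ →ₐ[Qb] modularFunctionFieldBar N₃)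
  (hφ₁ : FiniteAlong Qb φ₁) (hφ₂ : FiniteAlong Qb φ₂)

/-- the base-change property of the norms in a square -/
def S35eNormBC : Prop :=
  ∀ f : modularFunctionFieldBar N₁,
    (letI := algebraAlong φ₂; Algebra.norm (modularFunctionFieldBar N₂)) (ψ₁ f) =
      ψ₀ ((letI := algebraAlong φ₁; Algebra.norm (modularFunctionFieldBar N₀)) f)

/-- the base-change property of the norms holds when the square commutes, `[F(N₁) : φ₁ F(N₀)]` and
`[F(N₂) : ψ₀ F(N₀)]` are coprime and `[F(N₃) : φ₂ F(N₂)] = [F(N₁) : φ₁ F(N₀)]`. -/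
theorem s35e_normBC_of_degrees (hfin : FiniteAlong Qb φ₁)
    (hcomm : ∀ x, ψ₁ (φ₁ x) = φ₂ (ψ₀ x))
    (hcop : (finrankAlong Qb φ₁).Coprime (finrankAlong Qb ψ₀))
    (hrank : finrankAlong Qb φ₂ = finrankAlong Qb φ₁) : S35eNormBC φ₁ φ₂ ψ₀ ψ₁ := by
  intro f
  letI aF₁ : Algebra (modularFunctionFieldBar N₀) (modularFunctionFieldBar N₁) := algebraAlong φ₁
  letI aL : Algebra (modularFunctionFieldBar N₀) (modularFunctionFieldBar N₂) := algebraAlong ψ₀
  letI aF₁E : Algebra (modularFunctionFieldBar N₁) (modularFunctionFieldBar N₃) :=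
    algebraAlong ψ₁
  letI aLE : Algebra (modularFunctionFieldBar N₂) (modularFunctionFieldBar N₃) := algebraAlong φ₂
  letI aFE : Algebra (modularFunctionFieldBar N₀) (modularFunctionFieldBar N₃) :=
    (φ₂.toRingHom.comp ψ₀.toRingHom).toAlgebra
  haveI : IsScalarTower (modularFunctionFieldBar N₀) (modularFunctionFieldBar N₂)
      (modularFunctionFieldBar N₃) := IsScalarTower.of_algebraMap_eq (fun _ => rfl)
  haveI : IsScalarTower (modularFunctionFieldBar N₀) (modularFunctionFieldBar N₁)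
      (modularFunctionFieldBar N₃) := IsScalarTower.of_algebraMap_eq (fun x => (hcomm x).symm)
  haveI : FiniteDimensional (modularFunctionFieldBar N₀) (modularFunctionFieldBar N₁) := hfin
  exact s35e_norm_baseChange (F := modularFunctionFieldBar N₀) (F₁ := modularFunctionFieldBar N₁)
    (L := modularFunctionFieldBar N₂) (E := modularFunctionFieldBar N₃) hcop hrank f

/-- BASE CHANGE ON DIVISORS OF DEGREE `0` : `φ₂_* ψ₁^* = ψ₀^* φ₁_*`. -/
theorem s35e_square_div (hψ₀ : FiniteAlong Qb ψ₀) (hψ₁ : FiniteAlong Qb ψ₁)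
    (hBC : S35eNormBC φ₁ φ₂ ψ₀ ψ₁)
    (D : Divisor Qb (modularFunctionFieldBar N₁))
    (hD : D ∈ Divisor.degZero (K := Qb) (F := modularFunctionFieldBar N₁)) :
    haveI := gff_hasPrincipalDivisors N₂
    haveI := gff_hasPrincipalDivisors N₃
    Divisor.pushforwardAlong φ₂ (gffa_along_isIntegral φ₂ hφ₂)
        (Divisor.pullbackAlong ψ₁ (gffa_along_isIntegral ψ₁ hψ₁) D) =
      Divisor.pullbackAlong ψ₀ (gffa_along_isIntegral ψ₀ hψ₀)
        (Divisor.pushforwardAlong φ₁ (gffa_along_isIntegral φ₁ hφ₁) D) := by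
  haveI := gff_hasPrincipalDivisors N₂
  haveI := gff_hasPrincipalDivisors N₃
  set iφ₁ := gffa_along_isIntegral φ₁ hφ₁
  set iφ₂ := gffa_along_isIntegral φ₂ hφ₂
  set iψ₀ := gffa_along_isIntegral ψ₀ hψ₀
  set iψ₁ := gffa_along_isIntegral ψ₁ hψ₁
  have nφ₁ : NormFormulaAlong Qb φ₁ hφ₁ := gffa_along_normFormula φ₁ hφ₁ (isSepGen_jBar N₀)
  have nφ₂ : NormFormulaAlong Qb φ₂ hφ₂ := gffa_along_normFormula φ₂ hφ₂ (isSepGen_jBar N₂)
  have key := ghrm_vanish N₁
    (((Divisor.pushforwardAlong φ₂ iφ₂).comp (Divisor.pullbackAlong ψ₁ iψ₁)) -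
      ((Divisor.pullbackAlong ψ₀ iψ₀).comp (Divisor.pushforwardAlong φ₁ iφ₁)))
    (fun E hE => by
      show Divisor.pushforwardAlong φ₂ iφ₂ (Divisor.pullbackAlong ψ₁ iψ₁ E) -
        Divisor.pullbackAlong ψ₀ iψ₀ (Divisor.pushforwardAlong φ₁ iφ₁ E) = 0
      obtain ⟨f, hf, hEf⟩ := hE
      rw [sub_eq_zero]
      ext w
      have hf' : ψ₁ f ≠ 0 := (map_ne_zero _).2 hf
      have h1 : Divisor.pushforwardAlong φ₂ iφ₂ (Divisor.pullbackAlong ψ₁ iψ₁ E) w =
          w.ord ((letI := algebraAlong φ₂; Algebra.norm (modularFunctionFieldBar N₂)) (ψ₁ f)) :=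
        gff_pushforwardAlong_ord φ₂ iφ₂ hφ₂ nφ₂ _ (ψ₁ f) hf'
          (fun v => gff_pullbackAlong_ord ψ₁ iψ₁ E f hEf v) w
      have h2 : Divisor.pullbackAlong ψ₀ iψ₀ (Divisor.pushforwardAlong φ₁ iφ₁ E) w =
          w.ord (ψ₀ ((letI := algebraAlong φ₁; Algebra.norm (modularFunctionFieldBar N₀)) f)) :=
        gff_pullbackAlong_ord ψ₀ iψ₀ _ _
          (fun v => gff_pushforwardAlong_ord φ₁ iφ₁ hφ₁ nφ₁ E f hf hEf v) w
      rw [h1, h2, hBC f])
    (finrankAlong Qb ψ₁ + finrankAlong Qb ψ₀)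
    (fun P => by
      show ghrNorm1 (Divisor.pushforwardAlong φ₂ iφ₂
          (Divisor.pullbackAlong ψ₁ iψ₁ (Finsupp.single P 1)) -
        Divisor.pullbackAlong ψ₀ iψ₀ (Divisor.pushforwardAlong φ₁ iφ₁ (Finsupp.single P 1))) ≤ _
      have hdegN₁ : ∀ Q : Place Qb (modularFunctionFieldBar N₁), Q.deg = 1 :=
        fun Q => (isSepGen_jBar N₁).deg_eq_one Q
      have hP : (0 : Divisor Qb (modularFunctionFieldBar N₁)) ≤ Finsupp.single P 1 :=
        s35e_single_nonneg P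
      have hdP : Divisor.degree (Finsupp.single P (1 : ℤ)) = 1 := by
        rw [Divisor.degree_single, hdegN₁, Nat.cast_one, mul_one]
      refine (ghrm_norm1_sub_le _ _).trans (add_le_add ?_ ?_)
      · have h1 := s35e_norm1_push φ₂ iφ₂ _ (s35e_pull_nonneg ψ₁ iψ₁ _ hP)
        have h2 := s35e_norm1_pull ψ₁ hψ₁ iψ₁ _ hP
        rw [← ghrb_degree_eq_norm1 (fun Q => (isSepGen_jBar N₃).deg_eq_one Q) _
          (s35e_pull_nonneg ψ₁ iψ₁ _ hP)] at h2
        rw [h2, hdP, mul_one] at h1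
        exact le_of_eq (by exact_mod_cast h1)
      · have h1 := s35e_norm1_pull ψ₀ hψ₀ iψ₀ _ (s35e_push_nonneg φ₁ iφ₁ _ hP)
        rw [Divisor.degree_pushforwardAlong, hdP, mul_one] at h1
        exact le_of_eq (by exact_mod_cast h1))
    D hD
  exact sub_eq_zero.mp key

/-- BASE CHANGE ON CLASSES : `φ₂_* ψ₁^* = ψ₀^* φ₁_*` on `Pic⁰`. -/
theorem s35e_square (hψ₀ : FiniteAlong Qb ψ₀) (hψ₁ : FiniteAlong Qb ψ₁)
    (hBC : S35eNormBC φ₁ φ₂ ψ₀ ψ₁)
    (iφ₁ : φ₁.toRingHom.IsIntegral) (iφ₂ : φ₂.toRingHom.IsIntegral)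
    (iψ₀ : ψ₀.toRingHom.IsIntegral) (iψ₁ : ψ₁.toRingHom.IsIntegral)
    (nφ₁ : NormFormulaAlong Qb φ₁ hφ₁) (nφ₂ : NormFormulaAlong Qb φ₂ hφ₂)
    [HasPrincipalDivisors Qb (modularFunctionFieldBar N₂)]
    [HasPrincipalDivisors Qb (modularFunctionFieldBar N₃)]
    (fψ₀ : FundamentalIdentityAlong Qb ψ₀ iψ₀) (fψ₁ : FundamentalIdentityAlong Qb ψ₁ iψ₁)
    (x : JZero N₁) :
    g37pPushAlong φ₂ iφ₂ hφ₂ nφ₂ (g37pPullAlong ψ₁ iψ₁ fψ₁ x) =
      g37pPullAlong ψ₀ iψ₀ fψ₀ (g37pPushAlong φ₁ iφ₁ hφ₁ nφ₁ x) := by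
  obtain ⟨D, rfl⟩ := Pic0.mk_surjective x
  rw [g37pPullAlong_mk, g37pPushAlong_mk, g37pPushAlong_mk, g37pPullAlong_mk]
  refine congrArg Pic0.mk (Subtype.ext ?_)
  rw [coe_g37pDegZeroPush, coe_g37pDegZeroPull, coe_g37pDegZeroPull, coe_g37pDegZeroPush]
  exact s35e_square_div φ₁ φ₂ ψ₀ ψ₁ hφ₁ hφ₂ hψ₀ hψ₁ hBC D D.2

end Square

end Fermat.Agent.G
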