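import Mathlib
import Fermat.Agent.S35.AuxNew.Square
import Fermat.Agent.S35.AuxNew.Incl

/-!
# Program T (S35), leaf (AUX-NEW) : the auxiliary level preserves `q`-new classes (prefix `s35e_`)

For `q ∈ {2, 3}` the chart of Program T is `h_a`, `a = 5 - q`, which needs `a ∣` level.  As in
`SS/AuxLevel.lean` one passes from level `M q` to level `M a q` by the pull-back
`s35ePull M q a : J₀(M q) → J₀(M a q)` (Galois equivariant, kernel killed by `a + 1`).  Program T
needs in addition that the pull-back of a `q`-NEW class is `q`-new, i.e. the base change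

  `α_{q,*}' ∘ pull = α_a^* ∘ α_{q,*}`,   `β_{q,*}' ∘ pull = α_a^* ∘ β_{q,*}`

(`s35e_push_pull_alpha`, `s35e_push_pull_beta`).  The norms commute with the base change because
`q + 1` and `a + 1` are coprime (`s35e_norm_baseChange`); for `β` the degree
`[F(N q) : β F(N)] = q + 1` is an explicit hypothesis here (`Main` is independent of its proof).
-/

set_option autoImplicit false
set_option linter.unusedSectionVars false
set_option linter.unusedVariables false
set_option synthInstance.maxHeartbeats 400000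
set_option linter.style.haveILetI false

noncomputable section

namespace Fermat.Agent.G

open ModularCurve AlgebraicCurve IntermediateField Fermat.Agent.S24

local notation "Qb" => AlgebraicClosure ℚ

/-- `[F(N ℓ) : α F(N)] = ℓ + 1` -/
theorem s35e_alpha_finrank (N ℓ : ℕ) [NeZero N] [NeZero ℓ] (hℓ : ℓ.Prime) (hℓN : ¬ ℓ ∣ N) :
    finrankAlong Qb (heckeAlphaBar Qb N ℓ) = ℓ + 1 := by
  haveI : Fact ℓ.Prime := ⟨hℓ⟩
  exact gcjd_finrank N hℓN

section Main

variable (M q a : ℕ) [NeZero M] [NeZero q] [NeZero a]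

theorem s35e_dvd : M * q ∣ M * a * q := ⟨a, by ring⟩

/-- THE AUXILIARY PULL-BACK `J₀(M q) → J₀(M a q)`. -/
def s35ePull : JZero (M * q) →+ JZero (M * a * q) := s35ePullIncl (s35e_dvd M q a)

/-- the auxiliary pull-back commutes with the Galois action -/
theorem s35e_pull_galois (σ : Qb ≃ₐ[ℚ] Qb) (x : JZero (M * q)) :
    s35ePull M q a (σ • x) = σ • s35ePull M q a x :=
  s35e_pullIncl_galois (s35e_dvd M q a) σ x

/-- the kernel of the auxiliary pull-back is killed by `a + 1` -/
theorem s35e_pull_eq_zero (ha : a.Prime) (haMq : ¬ a ∣ M * q) (x : JZero (M * q))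
    (hx : s35ePull M q a x = 0) : (a + 1) • x = 0 :=
  s35e_pullIncl_eq_zero (s35e_dvd M q a) ha haMq (by ring) x hx

theorem s35e_comm_alpha (x : modularFunctionFieldBar M) :
    s35eIncl (s35e_dvd M q a) (heckeAlphaBar Qb M q x) =
      heckeAlphaBar Qb (M * a) q (heckeAlphaBar Qb M a x) := by
  apply Subtype.ext
  rw [coe_s35eIncl, coe_heckeAlphaBar, coe_heckeAlphaBar, coe_heckeAlphaBar]

theorem s35e_comm_beta (x : modularFunctionFieldBar M) :
    s35eIncl (s35e_dvd M q a) (heckeBetaBar Qb M q x) =
      heckeBetaBar Qb (M * a) q (heckeAlphaBar Qb M a x) := by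
  apply Subtype.ext
  rw [coe_s35eIncl, coe_heckeBetaBar, coe_heckeBetaBar, coe_heckeAlphaBar]

variable {M q a}

/-- BASE CHANGE FOR `α_*` : the push-forward `α_{q,*}` commutes with the auxiliary pull-back. -/
theorem s35e_push_pull_alpha (hq : q.Prime) (ha : a.Prime) (hqM : ¬ q ∣ M) (haM : ¬ a ∣ M)
    (hqa : q ≠ a) (hcop : (q + 1).Coprime (a + 1)) (x : JZero (M * q)) :
    g37pPush (M * a) q (s35ePull M q a x) = g37pPull M a (g37pPush M q x) := by
  haveI := gff_hasPrincipalDivisors (M * a)
  haveI := gff_hasPrincipalDivisors (M * a * q)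
  have hqMa : ¬ q ∣ M * a := fun h =>
    (hq.dvd_mul.mp h).elim hqM (fun h' => hqa ((Nat.prime_dvd_prime_iff_eq hq ha).mp h'))
  have hBC : S35eNormBC (heckeAlphaBar Qb M q) (heckeAlphaBar Qb (M * a) q)
      (heckeAlphaBar Qb M a) (s35eIncl (s35e_dvd M q a)) := by
    refine s35e_normBC_of_degrees _ _ _ _ (gff_alpha_finite M q) (s35e_comm_alpha M q a) ?_ ?_
    · rw [s35e_alpha_finrank M q hq hqM, s35e_alpha_finrank M a ha haM]
      exact hcop
    · rw [s35e_alpha_finrank M q hq hqM, s35e_alpha_finrank (M * a) q hq hqMa]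
  exact s35e_square (heckeAlphaBar Qb M q) (heckeAlphaBar Qb (M * a) q) (heckeAlphaBar Qb M a)
    (s35eIncl (s35e_dvd M q a)) (gff_alpha_finite M q) (gff_alpha_finite (M * a) q)
    (gff_alpha_finite M a) (s35e_incl_finite _) hBC (gff_alpha_integral M q)
    (gff_alpha_integral (M * a) q) (gff_alpha_integral M a) (s35e_incl_integral _)
    (g37p_alpha_normFormula M q) (g37p_alpha_normFormula (M * a) q)
    (g37p_alpha_fundamentalIdentity M a) (s35e_incl_fundamentalIdentity _) x

/-- BASE CHANGE FOR `β_*` : the push-forward `β_{q,*}` commutes with the auxiliary pull-back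
(given the degrees of `β` at the two levels; any proofs `hN`, `hN'` of the norm formula). -/
theorem s35e_push_pull_beta (ha : a.Prime) (haM : ¬ a ∣ M)
    (hcop : (q + 1).Coprime (a + 1))
    (hβ : finrankAlong Qb (heckeBetaBar Qb M q) = q + 1)
    (hβ' : finrankAlong Qb (heckeBetaBar Qb (M * a) q) = q + 1)
    (hN : NormFormulaAlong Qb (heckeBetaBar Qb M q) (gff_beta_finite M q))
    (hN' : NormFormulaAlong Qb (heckeBetaBar Qb (M * a) q) (gff_beta_finite (M * a) q))
    (x : JZero (M * q)) :
    g37pPushAlong (heckeBetaBar Qb (M * a) q) (gff_beta_integral (M * a) q)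
        (gff_beta_finite (M * a) q) hN' (s35ePull M q a x) =
      g37pPull M a (g37pPushAlong (heckeBetaBar Qb M q) (gff_beta_integral M q)
        (gff_beta_finite M q) hN x) := by
  haveI := gff_hasPrincipalDivisors (M * a)
  haveI := gff_hasPrincipalDivisors (M * a * q)
  have hBC : S35eNormBC (heckeBetaBar Qb M q) (heckeBetaBar Qb (M * a) q)
      (heckeAlphaBar Qb M a) (s35eIncl (s35e_dvd M q a)) := by
    refine s35e_normBC_of_degrees _ _ _ _ (gff_beta_finite M q) (s35e_comm_beta M q a) ?_ ?_
    · rw [hβ, s35e_alpha_finrank M a ha haM]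
      exact hcop
    · rw [hβ, hβ']
  exact s35e_square (heckeBetaBar Qb M q) (heckeBetaBar Qb (M * a) q) (heckeAlphaBar Qb M a)
    (s35eIncl (s35e_dvd M q a)) (gff_beta_finite M q) (gff_beta_finite (M * a) q)
    (gff_alpha_finite M a) (s35e_incl_finite _) hBC (gff_beta_integral M q)
    (gff_beta_integral (M * a) q) (gff_alpha_integral M a) (s35e_incl_integral _)
    hN hN' (g37p_alpha_fundamentalIdentity M a) (s35e_incl_fundamentalIdentity _) x

end Main

end Fermat.Agent.G
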