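import Mathlib
import Fermat.Agent.S35.AuxNew.Main

/-!
# Program T (S35), leaf (AUX-NEW) : lowering the auxiliary level for `q`-new torsion classes
(prefix `s35e_`)

The `T`-analogue of `ss_mono_of_aux` (`SS/AuxLevel.lean`).  If an integer polynomial `Q` in a Galois
element `s` kills every `q`-new `p`-power torsion class of level `(M a) q`, then `Q(s)` kills every
`q`-new `p`-power torsion class of level `M q` (`a, q` distinct primes not dividing `M`,
`q + 1` and `a + 1` coprime, `p` prime to `a + 1`) : `s35e_kill_of_aux`.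
`q`-new means : killed by the two degeneracy push-forwards `α_{q,*}` (`g37pPush`) and `β_{q,*}`
(`g37pPushAlong (heckeBetaBar ..)`, any proof of the norm formula).
-/

set_option autoImplicit false
set_option linter.unusedSectionVars false
set_option linter.unusedVariables false
set_option synthInstance.maxHeartbeats 400000
set_option linter.style.haveILetI false

noncomputable section

namespace Fermat.Agent.G

open ModularCurve AlgebraicCurve IntermediateField Fermat.Agent.S24 Polynomial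

local notation "Qb" => AlgebraicClosure ℚ

/-! ### abstract transfer -/

section Abstract

variable {A B : Type*} [AddCommGroup A] [AddCommGroup B]

/-- an element of an additive group killed by two coprime integers is zero -/
theorem s35e_eq_zero_of_coprime {m n : ℕ} (h : Nat.Coprime m n)
    (z : A) (hm : m • z = 0) (hn : n • z = 0) : z = 0 := by
  have h1 : ((m : ℤ) * Nat.gcdA m n + (n : ℤ) * Nat.gcdB m n) • z = z := by
    rw [← Nat.gcd_eq_gcd_ab, h, Nat.cast_one, one_smul]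
  rw [← h1, add_smul, mul_comm (m : ℤ), mul_comm (n : ℤ), mul_smul, mul_smul, natCast_zsmul,
    natCast_zsmul, hm, hn, smul_zero, smul_zero, add_zero]

/-- the value of an integer polynomial at an endomorphism of an abelian group (a wrapper that keeps
instance search in the abstract setting) -/
def s35eOp (e : AddMonoid.End A) (Q : ℤ[X]) : AddMonoid.End A := aeval e Q

theorem s35eOp_def (e : AddMonoid.End A) (Q : ℤ[X]) : s35eOp e Q = aeval e Q := rfl

@[simp] theorem s35eOp_C (e : AddMonoid.End A) (c : ℤ) (x : A) : s35eOp e (C c) x = c • x := by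
  rw [s35eOp_def, aeval_C, algebraMap_int_eq, eq_intCast]
  exact AddMonoid.End.intCast_apply c x

@[simp] theorem s35eOp_X (e : AddMonoid.End A) (x : A) : s35eOp e X x = e x := by
  rw [s35eOp_def, aeval_X]

@[simp] theorem s35eOp_one (e : AddMonoid.End A) (x : A) : s35eOp e 1 x = x := by
  rw [s35eOp_def, map_one]
  rfl

@[simp] theorem s35eOp_add (e : AddMonoid.End A) (Q R : ℤ[X]) (x : A) :
    s35eOp e (Q + R) x = s35eOp e Q x + s35eOp e R x := by
  rw [s35eOp_def, map_add]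
  rfl

@[simp] theorem s35eOp_sub (e : AddMonoid.End A) (Q R : ℤ[X]) (x : A) :
    s35eOp e (Q - R) x = s35eOp e Q x - s35eOp e R x := by
  rw [s35eOp_def, map_sub]
  rfl

@[simp] theorem s35eOp_mul (e : AddMonoid.End A) (Q R : ℤ[X]) (x : A) :
    s35eOp e (Q * R) x = s35eOp e Q (s35eOp e R x) := by
  rw [s35eOp_def, map_mul]
  rfl

theorem s35eOp_pow_succ (e : AddMonoid.End A) (Q : ℤ[X]) (n : ℕ) (x : A) :
    s35eOp e (Q ^ (n + 1)) x = s35eOp e (Q ^ n) (s35eOp e Q x) := by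
  rw [pow_succ, s35eOp_mul]

/-- polynomials in intertwined endomorphisms are intertwined -/
theorem s35e_aeval_intertwine (P : A →+ B) (eA : AddMonoid.End A) (eB : AddMonoid.End B)
    (h : ∀ x, P (eA x) = eB (P x)) (Q : ℤ[X]) (x : A) :
    P (s35eOp eA Q x) = s35eOp eB Q (P x) := by
  induction Q using Polynomial.induction_on generalizing x with
  | C c => rw [s35eOp_C, s35eOp_C, map_zsmul]
  | add p r hp hr => rw [s35eOp_add, s35eOp_add, map_add, hp, hr]
  | monomial n c ih =>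
    have e1 : (C c * X ^ (n + 1) : ℤ[X]) = (C c * X ^ n) * X := by rw [pow_succ, mul_assoc]
    rw [e1, s35eOp_mul eA (C c * X ^ n) X, s35eOp_mul eB (C c * X ^ n) X, s35eOp_X, s35eOp_X,
      ih, h]

/-- ABSTRACT TRANSFER : `P : A → B` with kernel killed by `n`, intertwining `eA` and `eB`;
if `Q(eB)` kills `P x` and `x` is killed by a power of `p` prime to `n`, then `Q(eA)` kills `x`. -/
theorem s35e_kill_transfer (P : A →+ B) {n : ℕ} (hker : ∀ z, P z = 0 → n • z = 0)
    (eA : AddMonoid.End A) (eB : AddMonoid.End B) (h : ∀ x, P (eA x) = eB (P x))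
    {p : ℕ} (hp : Nat.Coprime p n) (Q : ℤ[X]) (x : A) (hx : ∃ k : ℕ, p ^ k • x = 0)
    (hQ : s35eOp eB Q (P x) = 0) : s35eOp eA Q x = 0 := by
  obtain ⟨k, hk⟩ := hx
  have h1 : P (s35eOp eA Q x) = 0 := by rw [s35e_aeval_intertwine P eA eB h, hQ]
  have h2 : p ^ k • s35eOp eA Q x = 0 := by
    rw [← map_nsmul, hk, map_zero]
  exact s35e_eq_zero_of_coprime (Nat.Coprime.pow_left k hp) _ h2 (hker _ h1)

end Abstract

/-! ### the modular instance -/

section Modular

variable {M q a : ℕ} [NeZero M] [NeZero q] [NeZero a]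

/-- the Galois action on `J₀(N)` as an endomorphism -/
abbrev s35eGal (N : ℕ) (s : Qb ≃ₐ[ℚ] Qb) : AddMonoid.End (JZero N) :=
  DistribMulAction.toAddMonoidEnd (Qb ≃ₐ[ℚ] Qb) (JZero N) s

theorem s35eGal_apply (N : ℕ) (s : Qb ≃ₐ[ℚ] Qb) (x : JZero N) : s35eGal N s x = s • x := rfl

/-- THE PULL-BACK OF A `q`-NEW CLASS IS `q`-NEW. -/
theorem s35e_new_of_new (hq : q.Prime) (ha : a.Prime) (hqM : ¬ q ∣ M) (haM : ¬ a ∣ M)
    (hqa : q ≠ a) (hcop : (q + 1).Coprime (a + 1))
    (hβ : finrankAlong Qb (heckeBetaBar Qb M q) = q + 1)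
    (hβ' : finrankAlong Qb (heckeBetaBar Qb (M * a) q) = q + 1)
    (hN : NormFormulaAlong Qb (heckeBetaBar Qb M q) (gff_beta_finite M q))
    (hN' : NormFormulaAlong Qb (heckeBetaBar Qb (M * a) q) (gff_beta_finite (M * a) q))
    (x : JZero (M * q)) (hxα : g37pPush M q x = 0)
    (hxβ : g37pPushAlong (heckeBetaBar Qb M q) (gff_beta_integral M q) (gff_beta_finite M q) hN x
      = 0) :
    g37pPush (M * a) q (s35ePull M q a x) = 0 ∧
      g37pPushAlong (heckeBetaBar Qb (M * a) q) (gff_beta_integral (M * a) q)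
        (gff_beta_finite (M * a) q) hN' (s35ePull M q a x) = 0 := by
  constructor
  · rw [s35e_push_pull_alpha hq ha hqM haM hqa hcop, hxα, map_zero]
  · rw [s35e_push_pull_beta ha haM hcop hβ hβ' hN hN', hxβ, map_zero]

/-- (AUX-NEW) LOWERING THE AUXILIARY LEVEL : if `Q(s)` kills the `q`-new `p`-power torsion of
level `(M a) q`, it kills the `q`-new `p`-power torsion of level `M q`. -/
theorem s35e_kill_of_aux (hq : q.Prime) (ha : a.Prime) (hqM : ¬ q ∣ M) (haM : ¬ a ∣ M)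
    (hqa : q ≠ a) (hcop : (q + 1).Coprime (a + 1))
    (hβ : finrankAlong Qb (heckeBetaBar Qb M q) = q + 1)
    (hβ' : finrankAlong Qb (heckeBetaBar Qb (M * a) q) = q + 1)
    (hN : NormFormulaAlong Qb (heckeBetaBar Qb M q) (gff_beta_finite M q))
    (hN' : NormFormulaAlong Qb (heckeBetaBar Qb (M * a) q) (gff_beta_finite (M * a) q))
    {p : ℕ} (hp : Nat.Coprime p (a + 1)) (s : Qb ≃ₐ[ℚ] Qb) (Q : ℤ[X])
    (hbig : ∀ y : JZero (M * a * q), (∃ k : ℕ, p ^ k • y = 0) → g37pPush (M * a) q y = 0 →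
      g37pPushAlong (heckeBetaBar Qb (M * a) q) (gff_beta_integral (M * a) q)
        (gff_beta_finite (M * a) q) hN' y = 0 → s35eOp (s35eGal (M * a * q) s) Q y = 0)
    (x : JZero (M * q)) (hx : ∃ k : ℕ, p ^ k • x = 0) (hxα : g37pPush M q x = 0)
    (hxβ : g37pPushAlong (heckeBetaBar Qb M q) (gff_beta_integral M q) (gff_beta_finite M q) hN x
      = 0) :
    s35eOp (s35eGal (M * q) s) Q x = 0 := by
  have haMq : ¬ a ∣ M * q := fun h =>
    (ha.dvd_mul.mp h).elim haM (fun h' => hqa ((Nat.prime_dvd_prime_iff_eq ha hq).mp h').symm)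
  obtain ⟨hyα, hyβ⟩ := s35e_new_of_new hq ha hqM haM hqa hcop hβ hβ' hN hN' x hxα hxβ
  have hy : ∃ k : ℕ, p ^ k • s35ePull M q a x = 0 := by
    obtain ⟨k, hk⟩ := hx
    exact ⟨k, by rw [← map_nsmul, hk, map_zero]⟩
  exact s35e_kill_transfer (s35ePull M q a) (fun z hz => s35e_pull_eq_zero M q a ha haMq z hz)
    (s35eGal (M * q) s) (s35eGal (M * a * q) s) (fun z => s35e_pull_galois M q a s z) hp Q x hx
    (hbig _ hy hyα hyβ)

/-- (AUX-NEW) for `q = 2` : auxiliary level `3`. -/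
theorem s35e_kill_two_of_aux (hM2 : ¬ 2 ∣ M) (hM3 : ¬ 3 ∣ M)
    (hβ : finrankAlong Qb (heckeBetaBar Qb M 2) = 2 + 1)
    (hβ' : finrankAlong Qb (heckeBetaBar Qb (M * 3) 2) = 2 + 1)
    (hN : NormFormulaAlong Qb (heckeBetaBar Qb M 2) (gff_beta_finite M 2))
    (hN' : NormFormulaAlong Qb (heckeBetaBar Qb (M * 3) 2) (gff_beta_finite (M * 3) 2))
    {p : ℕ} (hp : p.Prime) (hp2 : p ≠ 2) (s : Qb ≃ₐ[ℚ] Qb) (Q : ℤ[X])
    (hbig : ∀ y : JZero (M * 3 * 2), (∃ k : ℕ, p ^ k • y = 0) → g37pPush (M * 3) 2 y = 0 →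
      g37pPushAlong (heckeBetaBar Qb (M * 3) 2) (gff_beta_integral (M * 3) 2)
        (gff_beta_finite (M * 3) 2) hN' y = 0 → s35eOp (s35eGal (M * 3 * 2) s) Q y = 0)
    (x : JZero (M * 2)) (hx : ∃ k : ℕ, p ^ k • x = 0) (hxα : g37pPush M 2 x = 0)
    (hxβ : g37pPushAlong (heckeBetaBar Qb M 2) (gff_beta_integral M 2) (gff_beta_finite M 2) hN x
      = 0) :
    s35eOp (s35eGal (M * 2) s) Q x = 0 := by
  refine s35e_kill_of_aux Nat.prime_two Nat.prime_three hM2 hM3 (by norm_num) (by norm_num)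
    hβ hβ' hN hN' ?_ s Q hbig x hx hxα hxβ
  have h4 : (3 + 1 : ℕ) = 2 ^ 2 := by norm_num
  rw [h4]
  exact Nat.Coprime.pow_right 2 ((Nat.coprime_primes hp Nat.prime_two).mpr hp2)

/-- (AUX-NEW) for `q = 3` : auxiliary level `2`. -/
theorem s35e_kill_three_of_aux (hM2 : ¬ 2 ∣ M) (hM3 : ¬ 3 ∣ M)
    (hβ : finrankAlong Qb (heckeBetaBar Qb M 3) = 3 + 1)
    (hβ' : finrankAlong Qb (heckeBetaBar Qb (M * 2) 3) = 3 + 1)
    (hN : NormFormulaAlong Qb (heckeBetaBar Qb M 3) (gff_beta_finite M 3))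
    (hN' : NormFormulaAlong Qb (heckeBetaBar Qb (M * 2) 3) (gff_beta_finite (M * 2) 3))
    {p : ℕ} (hp : p.Prime) (hp3 : p ≠ 3) (s : Qb ≃ₐ[ℚ] Qb) (Q : ℤ[X])
    (hbig : ∀ y : JZero (M * 2 * 3), (∃ k : ℕ, p ^ k • y = 0) → g37pPush (M * 2) 3 y = 0 →
      g37pPushAlong (heckeBetaBar Qb (M * 2) 3) (gff_beta_integral (M * 2) 3)
        (gff_beta_finite (M * 2) 3) hN' y = 0 → s35eOp (s35eGal (M * 2 * 3) s) Q y = 0)
    (x : JZero (M * 3)) (hx : ∃ k : ℕ, p ^ k • x = 0) (hxα : g37pPush M 3 x = 0)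
    (hxβ : g37pPushAlong (heckeBetaBar Qb M 3) (gff_beta_integral M 3) (gff_beta_finite M 3) hN x
      = 0) :
    s35eOp (s35eGal (M * 3) s) Q x = 0 := by
  refine s35e_kill_of_aux Nat.prime_three Nat.prime_two hM3 hM2 (by norm_num) (by norm_num)
    hβ hβ' hN hN' ?_ s Q hbig x hx hxα hxβ
  exact (Nat.coprime_primes hp Nat.prime_three).mpr hp3

end Modular

end Fermat.Agent.G
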