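import Mathlib
import Fermat.Agent.S35.AuxNew.Kill
import Fermat.Agent.S35.AuxLvl.DegBeta
import Fermat.Agent.S35.Push.Galois

/-!
# Program T (S35), leaf (AUX-NEW) : hypothesis-free statements (prefix `s35e_`)

`deg β = ℓ + 1` (`s35db_finrankAlong_beta`, `S35/AuxLvl/DegBeta.lean`) discharges the degree
hypotheses of `S35/AuxNew/{Main,Kill}.lean`.  Statements in terms of `s35wPushBeta`, `s35wNew`
(`S35/Push/Galois.lean`), and in the operator shape `((s² - 1)(s² - q²))^m` of the kill box.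
-/

set_option autoImplicit false
set_option linter.unusedSectionVars false
set_option linter.unusedVariables false
set_option synthInstance.maxHeartbeats 400000
set_option linter.style.haveILetI false

noncomputable section

namespace Fermat.Agent.G

open ModularCurve AlgebraicCurve IntermediateField Fermat.Agent.S24 Polynomial

local notation "Qb" => AlgebraicClosure ℚ

/-- `[F(N ℓ) : β F(N)] = ℓ + 1` -/
theorem s35e_beta_finrank (N ℓ : ℕ) [NeZero N] [NeZero ℓ] (hℓ : ℓ.Prime) (hℓN : ¬ ℓ ∣ N) :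
    finrankAlong Qb (heckeBetaBar Qb N ℓ) = ℓ + 1 := by
  haveI : Fact ℓ.Prime := ⟨hℓ⟩
  exact s35db_finrankAlong_beta N hℓN

/-! ### the operator `((X² - 1)(X² - q²))^m` -/

section Phi

variable {A : Type*} [AddCommGroup A]

/-- the polynomial `((X² - 1)(X² - q²))^m` -/
def s35ePhiPoly (q m : ℕ) : ℤ[X] := ((X * X - 1) * (X * X - C (((q ^ 2 : ℕ) : ℤ)))) ^ m

theorem s35eOp_phiPoly (e : AddMonoid.End A) (q m : ℕ) :
    s35eOp e (s35ePhiPoly q m) =
      ((e * e - 1) * (e * e - ((q ^ 2 : ℕ) : AddMonoid.End A))) ^ m := by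
  rw [s35eOp_def, s35ePhiPoly, map_pow, map_mul, map_sub, map_sub, map_mul, aeval_X, map_one,
    aeval_C, algebraMap_int_eq, eq_intCast, Int.cast_natCast]

end Phi

section Modular

variable {M q a : ℕ} [NeZero M] [NeZero q] [NeZero a]

/-- BASE CHANGE FOR `β_*` (hypothesis-free, `s35wPushBeta` form). -/
theorem s35e_pushBeta_pull (hq : q.Prime) (ha : a.Prime) (hqM : ¬ q ∣ M) (haM : ¬ a ∣ M)
    (hqa : q ≠ a) (hcop : (q + 1).Coprime (a + 1)) (x : JZero (M * q)) :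
    s35wPushBeta (M * a) q (s35ePull M q a x) = g37pPull M a (s35wPushBeta M q x) := by
  have hqMa : ¬ q ∣ M * a := fun h =>
    (hq.dvd_mul.mp h).elim hqM (fun h' => hqa ((Nat.prime_dvd_prime_iff_eq hq ha).mp h'))
  exact s35e_push_pull_beta ha haM hcop (s35e_beta_finrank M q hq hqM)
    (s35e_beta_finrank (M * a) q hq hqMa) (s35w_beta_normFormula M q)
    (s35w_beta_normFormula (M * a) q) x

/-- THE AUXILIARY PULL-BACK OF A `q`-NEW CLASS IS `q`-NEW. -/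
theorem s35e_pull_mem_new (hq : q.Prime) (ha : a.Prime) (hqM : ¬ q ∣ M) (haM : ¬ a ∣ M)
    (hqa : q ≠ a) (hcop : (q + 1).Coprime (a + 1)) {x : JZero (M * q)}
    (hx : x ∈ s35wNew M q) : s35ePull M q a x ∈ s35wNew (M * a) q := by
  rw [s35w_mem_new] at hx ⊢
  rw [s35e_push_pull_alpha hq ha hqM haM hqa hcop, s35e_pushBeta_pull hq ha hqM haM hqa hcop,
    hx.1, hx.2, map_zero]
  exact ⟨rfl, rfl⟩

/-- (AUX-NEW), polynomial form, `s35wNew` form. -/
theorem s35e_kill_new_of_aux (hq : q.Prime) (ha : a.Prime) (hqM : ¬ q ∣ M) (haM : ¬ a ∣ M)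
    (hqa : q ≠ a) (hcop : (q + 1).Coprime (a + 1))
    {p : ℕ} (hp : Nat.Coprime p (a + 1)) (s : Qb ≃ₐ[ℚ] Qb) (Q : ℤ[X])
    (hbig : ∀ y : JZero (M * a * q), y ∈ s35wNew (M * a) q → (∃ k : ℕ, p ^ k • y = 0) →
      s35eOp (s35eGal (M * a * q) s) Q y = 0)
    {x : JZero (M * q)} (hx : x ∈ s35wNew M q) (hxp : ∃ k : ℕ, p ^ k • x = 0) :
    s35eOp (s35eGal (M * q) s) Q x = 0 := by
  have haMq : ¬ a ∣ M * q := fun h =>
    (ha.dvd_mul.mp h).elim haM (fun h' => hqa ((Nat.prime_dvd_prime_iff_eq ha hq).mp h').symm)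
  have hy : ∃ k : ℕ, p ^ k • s35ePull M q a x = 0 := by
    obtain ⟨k, hk⟩ := hxp
    exact ⟨k, by rw [← map_nsmul, hk, map_zero]⟩
  exact s35e_kill_transfer (s35ePull M q a) (fun z hz => s35e_pull_eq_zero M q a ha haMq z hz)
    (s35eGal (M * q) s) (s35eGal (M * a * q) s) (fun z => s35e_pull_galois M q a s z) hp Q x hxp
    (hbig _ (s35e_pull_mem_new hq ha hqM haM hqa hcop hx) hy)

/-- (AUX-NEW) IN THE SHAPE OF THE KILL BOX : if `((s² - 1)(s² - q²))^m` kills the `q`-new `p`-power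
torsion of level `(M a) q`, it kills the `q`-new `p`-power torsion of level `M q`. -/
theorem s35e_killBox_of_aux (hq : q.Prime) (ha : a.Prime) (hqM : ¬ q ∣ M) (haM : ¬ a ∣ M)
    (hqa : q ≠ a) (hcop : (q + 1).Coprime (a + 1))
    {p : ℕ} (hp : Nat.Coprime p (a + 1)) (s : Qb ≃ₐ[ℚ] Qb) (m : ℕ)
    (hbig : ∀ y : JZero (M * a * q), y ∈ s35wNew (M * a) q → (∃ k : ℕ, p ^ k • y = 0) →
      (((s35eGal (M * a * q) s * s35eGal (M * a * q) s - 1) *
        (s35eGal (M * a * q) s * s35eGal (M * a * q) s -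
          ((q ^ 2 : ℕ) : AddMonoid.End (JZero (M * a * q))))) ^ m) y = 0)
    {x : JZero (M * q)} (hx : x ∈ s35wNew M q) (hxp : ∃ k : ℕ, p ^ k • x = 0) :
    (((s35eGal (M * q) s * s35eGal (M * q) s - 1) *
      (s35eGal (M * q) s * s35eGal (M * q) s -
        ((q ^ 2 : ℕ) : AddMonoid.End (JZero (M * q))))) ^ m) x = 0 := by
  rw [← s35eOp_phiPoly]
  refine s35e_kill_new_of_aux hq ha hqM haM hqa hcop hp s (s35ePhiPoly q m) ?_ hx hxp
  intro y hy hyp
  rw [s35eOp_phiPoly]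
  exact hbig y hy hyp

/-- the kill box for `q = 2` from level `(M * 3) * 2`. -/
theorem s35e_killBox_two (hM2 : ¬ 2 ∣ M) (hM3 : ¬ 3 ∣ M) {p : ℕ} (hp : p.Prime) (hp2 : p ≠ 2)
    (s : Qb ≃ₐ[ℚ] Qb) (m : ℕ)
    (hbig : ∀ y : JZero (M * 3 * 2), y ∈ s35wNew (M * 3) 2 → (∃ k : ℕ, p ^ k • y = 0) →
      (((s35eGal (M * 3 * 2) s * s35eGal (M * 3 * 2) s - 1) *
        (s35eGal (M * 3 * 2) s * s35eGal (M * 3 * 2) s -
          ((2 ^ 2 : ℕ) : AddMonoid.End (JZero (M * 3 * 2))))) ^ m) y = 0)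
    {x : JZero (M * 2)} (hx : x ∈ s35wNew M 2) (hxp : ∃ k : ℕ, p ^ k • x = 0) :
    (((s35eGal (M * 2) s * s35eGal (M * 2) s - 1) *
      (s35eGal (M * 2) s * s35eGal (M * 2) s -
        ((2 ^ 2 : ℕ) : AddMonoid.End (JZero (M * 2))))) ^ m) x = 0 := by
  refine s35e_killBox_of_aux Nat.prime_two Nat.prime_three hM2 hM3 (by norm_num) (by norm_num)
    ?_ s m hbig hx hxp
  have h4 : (3 + 1 : ℕ) = 2 ^ 2 := by norm_num
  rw [h4]
  exact Nat.Coprime.pow_right 2 ((Nat.coprime_primes hp Nat.prime_two).mpr hp2)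

/-- the kill box for `q = 3` from level `(M * 2) * 3`. -/
theorem s35e_killBox_three (hM2 : ¬ 2 ∣ M) (hM3 : ¬ 3 ∣ M) {p : ℕ} (hp : p.Prime) (hp3 : p ≠ 3)
    (s : Qb ≃ₐ[ℚ] Qb) (m : ℕ)
    (hbig : ∀ y : JZero (M * 2 * 3), y ∈ s35wNew (M * 2) 3 → (∃ k : ℕ, p ^ k • y = 0) →
      (((s35eGal (M * 2 * 3) s * s35eGal (M * 2 * 3) s - 1) *
        (s35eGal (M * 2 * 3) s * s35eGal (M * 2 * 3) s -
          ((3 ^ 2 : ℕ) : AddMonoid.End (JZero (M * 2 * 3))))) ^ m) y = 0)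
    {x : JZero (M * 3)} (hx : x ∈ s35wNew M 3) (hxp : ∃ k : ℕ, p ^ k • x = 0) :
    (((s35eGal (M * 3) s * s35eGal (M * 3) s - 1) *
      (s35eGal (M * 3) s * s35eGal (M * 3) s -
        ((3 ^ 2 : ℕ) : AddMonoid.End (JZero (M * 3))))) ^ m) x = 0 := by
  refine s35e_killBox_of_aux Nat.prime_three Nat.prime_two hM3 hM2 (by norm_num) (by norm_num)
    ?_ s m hbig hx hxp
  exact (Nat.coprime_primes hp Nat.prime_three).mpr hp3

end Modular

end Fermat.Agent.G
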